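/-
GAMMA-ZAR (helper9), part 1: the abstract core of **Zariski's connectedness theorem** for the
two-chart models of `Lib/T2/Core` (pure commutative algebra, no completions; the idempotent
analogue of `T1.tb_core`).

`𝒪` a commutative ring, `π ∈ 𝒪`, `B₁ B₂` subrings ("functions on the two charts"), contained in an
additive subgroup `M₁₂` ("functions on the overlap") which is `π`-saturated.  If `b₁ ∈ B₁`,
`b₂ ∈ B₂` are idempotent modulo `π` and congruent modulo `π`, and if `M₁₂/(B₁+B₂)` has bounded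
`π`-power torsion (finiteness of `H¹`), then there is a global function `s ∈ B₁ ∩ B₂` with
`s ≡ b₁ mod π`.

* `s33zN b = 3b² - 2b³`, the Newton step for idempotents;
* `s33z_exists_lift` : lifting an idempotent mod `π` to an idempotent mod `πⁿ` inside a subring;
* `s33z_dvd_sub` : uniqueness of the lift;
* `s33z_core` : the statement above.
-/
import Mathlib

set_option autoImplicit false

namespace Fermat.Agent.S33Z

section Newton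

variable {R : Type*} [CommRing R]

/-- the Newton step for idempotents -/
def s33zN (b : R) : R := 3 * b ^ 2 - 2 * b ^ 3

theorem s33zN_sub (b : R) : s33zN b - b = (b ^ 2 - b) * (1 - 2 * b) := by
  unfold s33zN; ring

theorem s33zN_sq_sub (b : R) :
    s33zN b ^ 2 - s33zN b = (b ^ 2 - b) ^ 2 * (4 * b ^ 2 - 4 * b - 3) := by
  unfold s33zN; ring

theorem s33zN_mem (B : Subring R) {b : R} (hb : b ∈ B) : s33zN b ∈ B := by
  unfold s33zN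
  have h3 : (3 : R) ∈ B := by exact_mod_cast natCast_mem B 3
  have h2 : (2 : R) ∈ B := by exact_mod_cast natCast_mem B 2
  exact B.sub_mem (B.mul_mem h3 (B.pow_mem hb 2)) (B.mul_mem h2 (B.pow_mem hb 3))

/-- lifting an idempotent modulo `π` to an idempotent modulo `πⁿ`, inside a subring -/
theorem s33z_exists_lift (π : R) (B : Subring R) {b : R} (hb : b ∈ B) (hi : π ∣ b ^ 2 - b)
    (n : ℕ) : ∃ b' ∈ B, π ∣ b' - b ∧ π ^ (n + 1) ∣ b' ^ 2 - b' := by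
  induction n with
  | zero => exact ⟨b, hb, by simp, by simpa using hi⟩
  | succ n ih =>
    obtain ⟨b', hb', h1, h2⟩ := ih
    refine ⟨s33zN b', s33zN_mem B hb', ?_, ?_⟩
    · have h3 : π ∣ b' ^ 2 - b' := dvd_trans (dvd_pow_self π (by omega)) h2
      have : s33zN b' - b = (s33zN b' - b') + (b' - b) := by ring
      rw [this, s33zN_sub]
      exact dvd_add (Dvd.dvd.mul_right h3 _) h1
    · rw [s33zN_sq_sub]
      refine Dvd.dvd.mul_right ?_ _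
      have h4 : π ^ (n + 1 + 1) ∣ (π ^ (n + 1)) ^ 2 := by
        rw [← pow_mul]
        exact pow_dvd_pow π (by omega)
      exact dvd_trans h4 (pow_dvd_pow_of_dvd h2 2)

/-- two idempotents modulo `πⁿ` which are congruent modulo `π` are congruent modulo `πⁿ` -/
theorem s33z_dvd_sub (π : R) {x y : R} (n : ℕ) (hx : π ^ n ∣ x ^ 2 - x) (hy : π ^ n ∣ y ^ 2 - y)
    (hxy : π ∣ x - y) : π ^ n ∣ x - y := by
  set δ := x - y with hδ
  have h3 : π ^ n ∣ δ ^ 3 - δ := by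
    have : δ ^ 3 - δ = (x ^ 2 - x) * (1 + x - 3 * y) + (y ^ 2 - y) * (3 * x - 1 - y) := by
      rw [hδ]; ring
    rw [this]
    exact dvd_add (Dvd.dvd.mul_right hx _) (Dvd.dvd.mul_right hy _)
  have hgeom : (1 - δ ^ 2) * ∑ i ∈ Finset.range n, (δ ^ 2) ^ i = 1 - (δ ^ 2) ^ n := by
    rw [mul_comm]
    exact geom_sum_mul_neg (δ ^ 2) n
  have hpow : π ^ n ∣ δ ^ (2 * n + 1) := by
    obtain ⟨u, hu⟩ := hxy
    rw [hu, mul_pow]
    exact Dvd.dvd.mul_right (pow_dvd_pow π (by omega)) _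
  have hdec : δ = δ ^ (2 * n + 1) - (δ ^ 3 - δ) * ∑ i ∈ Finset.range n, (δ ^ 2) ^ i := by
    have h1 : (δ ^ 3 - δ) * ∑ i ∈ Finset.range n, (δ ^ 2) ^ i =
        -δ * ((1 - δ ^ 2) * ∑ i ∈ Finset.range n, (δ ^ 2) ^ i) := by ring
    rw [h1, hgeom, ← pow_mul, pow_succ]
    ring
  rw [hdec]
  exact dvd_sub hpow (Dvd.dvd.mul_right h3 _)

end Newton

section Core

variable {𝒪 : Type*} [CommRing 𝒪]

theorem s33z_mem_of_pow_mul_mem (π : 𝒪) (M : AddSubgroup 𝒪) (hsat : ∀ x : 𝒪, π * x ∈ M → x ∈ M)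
    (k : ℕ) (x : 𝒪) (hx : π ^ k * x ∈ M) : x ∈ M := by
  induction k with
  | zero => simpa using hx
  | succ k ih =>
    apply ih
    apply hsat
    rwa [← mul_assoc, ← pow_succ']

/-- **Zariski connectedness, abstract form.**  See the file header. -/
theorem s33z_core (π : 𝒪) (B₁ B₂ : Subring 𝒪) (hπ1 : π ∈ B₁) (hπ2 : π ∈ B₂)
    (M₁ M₂ M₁₂ : AddSubgroup 𝒪) (hM1 : ∀ s, s ∈ M₁ ↔ s ∈ B₁) (hM2 : ∀ s, s ∈ M₂ ↔ s ∈ B₂)
    (h1 : M₁ ≤ M₁₂) (h2 : M₂ ≤ M₁₂)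
    (hsat : ∀ x : 𝒪, π * x ∈ M₁₂ → x ∈ M₁₂)
    (b₁ b₂ : 𝒪) (hb1 : b₁ ∈ B₁) (hb2 : b₂ ∈ B₂) (hi1 : π ∣ b₁ ^ 2 - b₁) (hi2 : π ∣ b₂ ^ 2 - b₂)
    (h12 : π ∣ b₁ - b₂)
    (k₀ : ℕ) (hbdd : ∀ t ∈ M₁₂, ∀ k : ℕ, π ^ k * t ∈ M₁ ⊔ M₂ → π ^ k₀ * t ∈ M₁ ⊔ M₂) :
    ∃ s, s ∈ B₁ ∧ s ∈ B₂ ∧ π ∣ s - b₁ := by
  obtain ⟨c₁, hc1, hc1b, hc1i⟩ := s33z_exists_lift π B₁ hb1 hi1 k₀
  obtain ⟨c₂, hc2, hc2b, hc2i⟩ := s33z_exists_lift π B₂ hb2 hi2 k₀
  have hc12 : π ∣ c₁ - c₂ := by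
    have : c₁ - c₂ = (c₁ - b₁) + (b₁ - b₂) - (c₂ - b₂) := by ring
    rw [this]
    exact dvd_sub (dvd_add hc1b h12) hc2b
  obtain ⟨t, ht⟩ := s33z_dvd_sub π (k₀ + 1) hc1i hc2i hc12
  have hc12M : c₁ - c₂ ∈ M₁₂ := M₁₂.sub_mem (h1 ((hM1 _).mpr hc1)) (h2 ((hM2 _).mpr hc2))
  have htM : t ∈ M₁₂ := s33z_mem_of_pow_mul_mem π M₁₂ hsat (k₀ + 1) t (ht ▸ hc12M)
  have hsup : π ^ (k₀ + 1) * t ∈ M₁ ⊔ M₂ := by
    rw [← ht]
    exact (M₁ ⊔ M₂).sub_mem (AddSubgroup.mem_sup_left ((hM1 _).mpr hc1))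
      (AddSubgroup.mem_sup_right ((hM2 _).mpr hc2))
  obtain ⟨a₁, ha1, a₂, ha2, ha⟩ := AddSubgroup.mem_sup.mp (hbdd t htM (k₀ + 1) hsup)
  rw [hM1] at ha1
  rw [hM2] at ha2
  have heq : c₁ - π * a₁ = c₂ + π * a₂ := by
    have h3 : c₁ - c₂ = π * (a₁ + a₂) := by
      rw [ht, ha, pow_succ]; ring
    linear_combination h3
  refine ⟨c₁ - π * a₁, B₁.sub_mem hc1 (B₁.mul_mem hπ1 ha1), ?_, ?_⟩
  · rw [heq]
    exact B₂.add_mem hc2 (B₂.mul_mem hπ2 ha2)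
  · have : c₁ - π * a₁ - b₁ = (c₁ - b₁) - π * a₁ := by ring
    rw [this]
    exact dvd_sub hc1b (Dvd.intro _ rfl)

end Core

end Fermat.Agent.S33Z
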