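/-
GAMMA-ZAR (helper9), part 2: **Zariski connectedness for the two-chart model of `T2Setup`**.

`su : T2Setup d σ` (any rank-one base, e.g. a DVR level `H` or the `ℚ̄`-level), and the only
functions regular on both charts of the generic fibre are the constants (`hconst`).  Then every
idempotent of `L̄^sing(0,0) = res B₁ ∩ res B₂` (the global functions of the special fibre) is a
constant: `s33z_idem`, `s33z_idem'`.

Proof: lift the idempotent to `b₁ ∈ B₁`, `b₂ ∈ B₂`; by `s33z_core` (Newton + bounded torsion of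
`H¹`, the latter from the lattice machine `T2Chart.bdd` for the trivial twist) there is a global
function `s ∈ B₁ ∩ B₂ = A` with the same reduction.
-/
import Fermat.Agent.Lib.S33.Zar.Abstract
import Fermat.Agent.Lib.T2.Core.Main
import Fermat.Agent.Lib.T2.Core.SemiFin

set_option autoImplicit false
set_option linter.style.haveILetI false

namespace Fermat.Agent.S33Z

open Fermat.Agent.T2
open Fermat.Agent.T1 (tbL tbLbar)

variable {K F k Fb : Type*} [Field K] [Field F] [Algebra K F] [Field k] [CommRing Fb] [Algebra k Fb]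
variable {d : T2Base K F k Fb} {σ : Type*} [Fintype σ] (su : T2Setup d σ)

theorem s33z_tbL_eq (x : F) (a b : ℕ) :
    tbL x (t2Int (K := K) x) (t2Int (K := K) x⁻¹) a b = tbLbar (K := K) x a b := rfl

/-- the chart of the lattice machine for the trivial twist -/
def s33zChart : T2Chart d where
  ℓ := su.ℓ
  hℓ := su.hℓ
  hℓA := su.hℓA
  hℓ0 := su.hℓ0
  m := 1
  hm := Nat.coprime_one_left _
  x := su.x
  hx := su.hx
  hxi := su.hxi
  y := 1
  hy := d.Ov.one_mem
  hy1 := d.res_one' _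
  L1 := t2Int su.x
  L2 := t2Int su.x⁻¹
  mul_mem1 := fun _ _ hf hs => t2Int_mul hf hs
  mul_mem2 := fun _ _ hf hs => t2Int_mul hf hs
  pow1 := fun s hs => by
    rw [pow_one, mul_one]; exact hs
  pow2 := fun s hs => by
    rw [pow_one, mul_one]; exact hs
  exists1 := fun _ hs => t2_exists_inv_pow_mul_mem_t2Int su.hx0 hs
  exists2 := fun s hs => su.ex2 s hs
  finL := fun a b => su.finL0 a b
  Lbar := su.Lsing
  finLbar := su.finiteDimensional_Lsing
  Lbar_mono' := fun _ _ _ _ ha hb => su.Lsing_mono ha hb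
  one_mem_Lbar := su.one_mem_Lsing
  Lbar_inf_le_left := su.Lsing_inf_le_left
  Lbar_inf_le_right := su.Lsing_inf_le_right
  resBall_L_le' := su.resBall_le_Lsing
  n := su.n
  c := su.c
  a0 := max su.a0 su.e
  dimbar := fun a b hab =>
    su.finrank_Lsing ((le_max_left _ _).trans hab) (((le_max_right _ _).trans hab).trans (by omega))
  dimgen := fun a b hab => (su.dim0 a b ((le_max_left _ _).trans hab)).ge

/-- the residue ring of a `T2Base` is nontrivial -/
theorem s33z_nontrivial (d : T2Base K F k Fb) : Nontrivial Fb := by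
  obtain ⟨c, -, h, hres⟩ := d.normalize 1 one_ne_zero
  exact ⟨⟨_, 0, hres⟩⟩

/-- a constant of the Gauss ring lies in `A` -/
theorem s33z_mem_A (d : T2Base K F k Fb) {a : K} (ha : algebraMap K F a ∈ d.Ov) : a ∈ d.A := by
  by_contra hA
  have hinv : a⁻¹ ∈ d.A := (d.A.mem_or_inv_mem a).resolve_left hA
  have ha0 : a ≠ 0 := by
    rintro rfl
    exact hA d.A.zero_mem
  have hm : (⟨a⁻¹, hinv⟩ : ↥d.A) ∈ IsLocalRing.maximalIdeal ↥d.A := by
    rw [IsLocalRing.mem_maximalIdeal, mem_nonunits_iff]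
    intro hu
    apply hA
    obtain ⟨b, hb⟩ := isUnit_iff_exists_inv.mp hu
    have h1 : a⁻¹ * (b : K) = 1 := by
      have := congrArg Subtype.val hb
      simpa using this
    have h2 : (b : K) = a := by
      have := congrArg (fun t => a * t) h1
      simpa [← mul_assoc, mul_inv_cancel₀ ha0] using this
    rw [← h2]
    exact b.2
  have h0 : d.res (d.toOv ⟨a⁻¹, hinv⟩) = 0 := by
    rw [d.res_toOv, (d.resA_eq_zero_iff _).mpr hm, map_zero]
  have h1 : (⟨algebraMap K F a, ha⟩ : ↥d.Ov) * d.toOv ⟨a⁻¹, hinv⟩ = 1 := by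
    apply Subtype.ext
    show algebraMap K F a * algebraMap K F a⁻¹ = 1
    rw [← map_mul, mul_inv_cancel₀ ha0, map_one]
  have h2 : (1 : Fb) = 0 := by
    rw [← map_one d.res, ← h1, map_mul, h0, mul_zero]
  haveI := s33z_nontrivial d
  exact one_ne_zero h2

/-- **Zariski connectedness**: every idempotent global function of the special fibre is the
reduction of a constant. -/
theorem s33z_idem
    (hconst : ∀ f : F, f ∈ t2Int (K := K) su.x → f ∈ t2Int (K := K) su.x⁻¹ →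
      f ∈ Set.range (algebraMap K F))
    {e : Fb} (he : e ∈ su.Lsing 0 0) (hee : e * e = e) : ∃ c : k, e = algebraMap k Fb c := by
  classical
  set ch := s33zChart su with hch
  obtain ⟨h1, h2⟩ := su.mem_Lsing.mp he
  rw [pow_zero, one_mul] at h1 h2
  obtain ⟨f₁, hf₁, hr₁⟩ := h1
  obtain ⟨f₂, hf₂, hr₂⟩ := h2
  set b₁ : ↥d.Ov := ⟨f₁, hf₁.2⟩ with hb₁
  set b₂ : ↥d.Ov := ⟨f₂, hf₂.2⟩ with hb₂
  have hr₁' : d.res b₁ = e := hr₁
  have hr₂' : d.res b₂ = e := hr₂
  obtain ⟨hℓA, hℓm⟩ := ValuationSubring.mem_nonunits_iff_exists_mem_maximalIdeal.mp su.hℓA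
  set p₀ : ↥d.A := ⟨((su.ℓ : ℕ) : K), hℓA⟩ with hp₀
  have hp₀0 : p₀ ≠ 0 := fun h => su.hℓ0 (congrArg Subtype.val h)
  obtain ⟨p₁, hp₁m, hp₁0, hp₁d, hp₁y⟩ := d.exists_dvd_of_res_eq_zero hℓm hp₀0
    (b₁ ^ 2 - b₁) (by rw [map_sub, map_pow, hr₁', pow_two, hee, sub_self])
  obtain ⟨p₂, hp₂m, hp₂0, hp₂d, hp₂e⟩ := d.exists_dvd_of_res_eq_zero hp₁m hp₁0
    (b₂ ^ 2 - b₂) (by rw [map_sub, map_pow, hr₂', pow_two, hee, sub_self])
  obtain ⟨p, hpm, hp0, hpd, hpe⟩ := d.exists_dvd_of_res_eq_zero hp₂m hp₂0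
    (b₁ - b₂) (by rw [map_sub, hr₁', hr₂', sub_self])
  have hπ2 : d.toOv p ∣ d.toOv p₂ := map_dvd d.toOv hpd
  have hπ1 : d.toOv p ∣ d.toOv p₁ := hπ2.trans (map_dvd d.toOv hp₂d)
  obtain ⟨c, hc0, hc⟩ := ch.exists_bound
  obtain ⟨k₀, hk₀⟩ := d.arch p hpm c hc0
  obtain ⟨s, hs1, hs2, hsπ⟩ := s33z_core (d.toOv p) ch.B1 ch.B2 (ch.toOv_mem_B1 p)
    (ch.toOv_mem_B2 p) ch.M1 ch.M2 ch.M12 (fun _ => Iff.rfl) (fun _ => Iff.rfl)
    ch.M1_le_M12 ch.M2_le_M12 (fun t ht => ch.mem_M12_of_mul_mem hp0 t ht)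
    b₁ b₂ hf₁.1 hf₂.1 (hπ1.trans hp₁y) (hπ2.trans hp₂e) hpe k₀
    (fun t ht k hk => ch.bdd hp0 hc hk₀ t ht k hk)
  -- `s` is a constant
  obtain ⟨a, ha⟩ := hconst (s : F) hs1 hs2
  have haO : algebraMap K F a ∈ d.Ov := ha ▸ s.2
  have haA : a ∈ d.A := s33z_mem_A d haO
  have hs : s = d.toOv ⟨a, haA⟩ := Subtype.ext ha.symm
  refine ⟨d.resA ⟨a, haA⟩, ?_⟩
  obtain ⟨u, hu⟩ := hsπ
  have h3 : d.res s - d.res b₁ = 0 := by
    rw [← map_sub, hu, map_mul, d.res_toOv, (d.resA_eq_zero_iff p).mpr hpm, map_zero, zero_mul]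
  rw [← hr₁', ← sub_eq_zero.mp h3, hs, d.res_toOv]

/-- **Zariski connectedness**: the global functions of the special fibre have no idempotents besides
`0` and `1`. -/
theorem s33z_idem'
    (hconst : ∀ f : F, f ∈ t2Int (K := K) su.x → f ∈ t2Int (K := K) su.x⁻¹ →
      f ∈ Set.range (algebraMap K F))
    {e : Fb} (he : e ∈ su.Lsing 0 0) (hee : e * e = e) : e = 0 ∨ e = 1 := by
  obtain ⟨c, rfl⟩ := s33z_idem su hconst he hee
  haveI := s33z_nontrivial d
  have hinj : Function.Injective (algebraMap k Fb) := (algebraMap k Fb).injective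
  have hc : c * c = c := hinj (by rw [map_mul, hee])
  have hc' : c * (c - 1) = 0 := by rw [mul_sub, hc, mul_one, sub_self]
  rcases mul_eq_zero.mp hc' with h | h
  · left; rw [h, map_zero]
  · right; rw [sub_eq_zero.mp h, map_one]

end Fermat.Agent.S33Z
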